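import Mathlib
import Fermat.Agent.S14C.XDefs
import Fermat.Agent.S14C.SI.Defs
import Fermat.Agent.S14C.SI.ClaimBPlan

/-!
# S14C / FIX : leaf table (statements only) for the first inequality `FIX p`

`FIX p` (see `XDefs`): for `K = ℚ(ζ_p)` and a singular, hyperprimary `α` which is not a `p`-th
power, some `Θ` in the X-space of `(K, α, m)` is nonzero at a prime not dividing `m`.

Proof by contradiction (all leaves below are `Prop`-valued; owners prove
`theorem <name> … : <Name>Statement …` in their own file):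

* `DualClassStatement` : if every `Θ` of the X-space vanishes at the primes not dividing `m`,
  then the classes of the "split" primes (`m ∉ P`, `sym α P = 0`) generate the class group up to
  an exponent `n'` prime to `p` (duality in the finite group `ClassGroup (𝓞 K)`).
* `DivisorFormStatement` : translation to divisors: finitely many of these primes `S0` suffice,
  and for every divisor `D` the divisor `n' • D` is principal outside `S0`.
* `LocalStatement`, `SplitLocPowStatement` : `α` is locally a `p`-th power (`SIDefs.LocPow`) at the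
  prime above `p` and at the split primes, and `p ∣ ord_v α` everywhere.
* `H1TrivialStatement` : Hilbert 90 + descent of divisors in the unramified extension
  `N = F(α^{1/p})`: every `S_N`-unit of norm one is of the form `σ η / η`.
* `CoreStatement` : with the Herbrand quotient `h0 * p = h1` of the `S_N`-units (all primes of
  `S` split completely) this is absurd.
-/

set_option autoImplicit false

open NumberField IsDedekindDomain nonZeroDivisors

namespace Fermat.Agent.S14C.FIXPlan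

open Fermat.Agent.S14C.SIDefs hiding sym
open Fermat.Agent.S14C.ClaimBPlan

/-- The class of a prime `v` in the class group. -/
noncomputable def classOf {K : Type} [Field K] [NumberField K] (v : Pl K) : ClassGroup (𝓞 K) :=
  ClassGroup.mk0 ⟨v.asIdeal, mem_nonZeroDivisors_of_ne_zero v.ne_bot⟩

/-- The "split" primes of `(K, α, m)`: primes not dividing `m` at which `α` is a `p`-th power
residue. -/
def splitPrimes {K : Type} [Field K] [NumberField K] (p : ℕ) (ζ α : 𝓞 K) (m : ℕ) : Set (Pl K) :=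
  {v | (m : 𝓞 K) ∉ v.asIdeal ∧ sym p ζ α v.asIdeal = 0}

/-- [FIX-CR] every ideal class contains an integral ideal coprime to `m`. -/
def ClassRepStatement : Prop :=
  ∀ (K : Type) [Field K] [NumberField K] (m : 𝓞 K), m ≠ 0 → ∀ I : (Ideal (𝓞 K))⁰,
    ∃ J : (Ideal (𝓞 K))⁰, ClassGroup.mk0 J = ClassGroup.mk0 I ∧
      (J : Ideal (𝓞 K)) ⊔ Ideal.span {m} = ⊤

/-- [FIX-D] duality: if the X-space of `(K, α, m)` vanishes on all primes not dividing `m`, the
classes of the split primes generate the class group up to an exponent prime to `p`. -/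
def DualClassStatement (p : ℕ) : Prop :=
  ∀ (K : Type) [Field K] [NumberField K] (ζ α : 𝓞 K) (m : ℕ), m ≠ 0 →
    (∀ Θ : Ideal (𝓞 K) → ZMod p, InX p ζ α m Θ →
      ∀ P : Ideal (𝓞 K), P.IsPrime → P ≠ ⊥ → (m : 𝓞 K) ∉ P → Θ P = 0) →
    ∃ n' : ℕ, ¬ p ∣ n' ∧
      ∀ g : ClassGroup (𝓞 K), g ^ n' ∈ Subgroup.closure (classOf '' splitPrimes p ζ α m)

/-- [FIX-DF] from the class group to divisors. -/
def DivisorFormStatement : Prop :=
  ∀ (K : Type) [Field K] [NumberField K] (n' : ℕ) (T : Set (Pl K)),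
    (∀ g : ClassGroup (𝓞 K), g ^ n' ∈ Subgroup.closure (classOf '' T)) →
    ∃ S0 : Finset (Pl K), (∀ v ∈ S0, v ∈ T) ∧
      ∀ D : Pl K →₀ ℤ, ∃ c : K, c ≠ 0 ∧ ∀ v, v ∉ S0 → (n' : ℤ) * D v = ord v c

/-- [FIX-L] local conditions from the hypotheses of `FIX`: `α` is singular (`p ∣ ord_v α` for
all `v`) and locally a `p`-th power at the primes above `p`. -/
def LocalStatement (p : ℕ) : Prop :=
  ∀ (K : Type) [Field K] [NumberField K] [IsCyclotomicExtension {p} ℚ K] (ζ α : 𝓞 K),
    IsPrimitiveRoot ζ p → α ≠ 0 →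
    (∃ 𝔞 : Ideal (𝓞 K), Ideal.span {α} = 𝔞 ^ p) →
    (∀ x : 𝓞 K, (∃ y : K, y ≠ 0 ∧ (x : K) = (α : K) * y ^ p) →
      ∀ n : ℕ, ∃ c : 𝓞 K, x - c ^ p ∈ Ideal.span {ζ - 1} ^ n) →
    (∀ v : Pl K, (p : ℤ) ∣ ord v (α : K)) ∧
    (∀ v : Pl K, Above p v → LocPow p (ζ : K) v (α : K))

/-- [FIX-SL] a prime not dividing `p α` at which `α` is a `p`-th power residue: `α` is locally a
`p`-th power there. -/
def SplitLocPowStatement (p : ℕ) : Prop :=
  ∀ (K : Type) [Field K] [NumberField K] (ζ α : 𝓞 K) (v : Pl K),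
    IsPrimitiveRoot ζ p → (p : 𝓞 K) ∉ v.asIdeal → α ∉ v.asIdeal →
    sym p ζ α v.asIdeal = 0 → LocPow p (ζ : K) v (α : K)

/-- [FIX-H1] Hilbert 90 + descent: `N / F` Galois of prime degree `p`, `σ ≠ 1`, unramified outside
`S`; `SN` = the primes of `N` over `S`; if for every divisor `D` of `F` the divisor `n' • D` is
principal outside `S` (`p ∤ n'`), then every `SN`-unit of norm one is `σ η / η` for an `SN`-unit
`η`. -/
def H1TrivialStatement : Prop :=
  ∀ (F N : Type) [Field F] [NumberField F] [Field N] [NumberField N] [Algebra F N] [IsGalois F N]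
    (p : ℕ) [Fact p.Prime], Module.finrank F N = p →
    ∀ σ : N ≃ₐ[F] N, σ ≠ 1 → ∀ (S : Finset (Pl F)) (SN : Finset (Pl N)),
    (∀ w : Pl N, w ∈ SN ↔ ∃ v ∈ S, w.asIdeal.comap (algebraMap (𝓞 F) (𝓞 N)) = v.asIdeal) →
    ∀ nm dm : (SN : Set (Pl N)).unit N →* (SN : Set (Pl N)).unit N,
    (∀ x, ((nm x : Nˣ) : N) = ∏ j ∈ Finset.range p, (σ ^ j) ((x : Nˣ) : N)) →
    (∀ x, ((dm x : Nˣ) : N) = σ ((x : Nˣ) : N) / ((x : Nˣ) : N)) →
    ∀ n' : ℕ, ¬ p ∣ n' →
    (∀ D : Pl F →₀ ℤ, ∃ c : F, c ≠ 0 ∧ ∀ v, v ∉ S → (n' : ℤ) * D v = ord v c) →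
    (∀ v : Pl F, v ∉ S → ∀ w : Pl N, w.asIdeal.comap (algebraMap (𝓞 F) (𝓞 N)) = v.asIdeal →
      ∀ x : F, ord w (algebraMap F N x) = ord v x) →
    nm.ker ≤ dm.range

/-- [FIX-C] the core, in the language of `SIDefs`: an element `a` of `F ∋ ζ_p` which is singular,
locally a `p`-th power above `p` and at a finite set `S0` of primes generating the class group up
to an exponent prime to `p`, is a `p`-th power (contradiction form, with the Kummer field `N`
given). -/
def CoreStatement : Prop :=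
  ∀ (F : Type) [Field F] [NumberField F] (p : ℕ) [Fact p.Prime] (ζ a : F)
    (N : Type) [Field N] [NumberField N] [Algebra F N] [IsGalois F N],
    p ≠ 2 → IsPrimitiveRoot ζ p → a ≠ 0 → (∀ b : F, b ^ p ≠ a) →
    Module.finrank F N = p → ∀ θ : N, θ ^ p = algebraMap F N a →
    (∀ v : Pl F, (p : ℤ) ∣ ord v a) →
    (∀ v : Pl F, Above p v → LocPow p ζ v a) →
    ∀ (S0 : Finset (Pl F)) (n' : ℕ), (∀ v ∈ S0, LocPow p ζ v a) → ¬ p ∣ n' →
    (∀ D : Pl F →₀ ℤ, ∃ c : F, c ≠ 0 ∧ ∀ v, v ∉ S0 → (n' : ℤ) * D v = ord v c) →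
    KummerSplitStatement → False

end Fermat.Agent.S14C.FIXPlan
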